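/-
Two-dimensional representations from a module annihilated by quadratic relations
(finite coefficient field).

If a group `G` acts on a non-zero finite space `V` over a finite field `k` and, for a character
`ω`, every `g` satisfies `ρ g ^ 2 - t * ρ g + ω g = 0` for some scalar `t`, then there is a
two-dimensional representation over `k` with the characteristic polynomials `X ^ 2 - t X + ω g`.
-/
import Mathlib.RingTheory.SimpleModule.Basic
import Mathlib.RingTheory.LittleWedderburn
import Mathlib.FieldTheory.PrimitiveElement
import Mathlib.FieldTheory.Finite.Basic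
import Mathlib.LinearAlgebra.Charpoly.ToMatrix
import Mathlib.LinearAlgebra.Matrix.Charpoly.Coeff
import Mathlib.LinearAlgebra.Trace
import Mathlib.LinearAlgebra.Determinant
import Mathlib.FieldTheory.Perfect

set_option autoImplicit false

noncomputable section

namespace Fermat.Agent.GaloisMod

open Module Polynomial

section Quad

variable {k : Type*} [Field k] {G : Type*} [Group G] {V : Type*} [AddCommGroup V] [Module k V]

/-- `g` satisfies the quadratic relation with middle coefficient `t`. -/
def QuadRel (ρ : G →* Module.End k V) (ω : G →* k) (g : G) (t : k) : Prop :=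
  ρ g * ρ g - t • ρ g + ω g • (1 : Module.End k V) = 0

variable {ρ : G →* Module.End k V} {ω : G →* k} {g : G} {t : k}

lemma char_ne_zero (ω : G →* k) (g : G) : ω g ≠ 0 := by
  intro h
  have h1 := map_mul ω g g⁻¹
  rw [mul_inv_cancel, map_one, h, zero_mul] at h1
  exact one_ne_zero h1

lemma quadRel_iff :
    QuadRel ρ ω g t ↔ ρ g + ω g • ρ g⁻¹ = t • (1 : Module.End k V) := by
  have h1 : ρ g⁻¹ * ρ g = 1 := by rw [← map_mul, inv_mul_cancel, map_one]
  have h2 : ρ g * ρ g⁻¹ = 1 := by rw [← map_mul, mul_inv_cancel, map_one]
  constructor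
  · intro h
    have h' := congrArg (fun x => ρ g⁻¹ * x) h
    simp only [mul_add, mul_sub, ← mul_assoc, h1, one_mul, mul_smul_comm, mul_one, mul_zero] at h'
    rw [sub_add_eq_add_sub, sub_eq_zero] at h'
    exact h'
  · intro h
    have h' := congrArg (fun x => ρ g * x) h
    simp only [mul_add, mul_smul_comm, h2, mul_one] at h'
    unfold QuadRel
    rw [sub_add_eq_add_sub, h', sub_self]

/-- The relation propagates to powers. -/
lemma exists_quadRel_pow {f : G} {t : k} (h : QuadRel ρ ω f t) (n : ℕ) :
    ∃ t' : k, QuadRel ρ ω (f ^ n) t' := by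
  simp only [quadRel_iff]
  rw [quadRel_iff] at h
  set x := ρ f with hx
  set y := ω f • ρ f⁻¹ with hy
  have hxy : x * y = ω f • (1 : Module.End k V) := by
    rw [hx, hy, mul_smul_comm, ← map_mul, mul_inv_cancel, map_one]
  have hyx : y * x = ω f • (1 : Module.End k V) := by
    rw [hx, hy, smul_mul_assoc, ← map_mul, inv_mul_cancel, map_one]
  have key : ∀ m : ℕ, ρ (f ^ m) + ω (f ^ m) • ρ (f ^ m)⁻¹ = x ^ m + y ^ m := by
    intro m
    rw [hx, hy, map_pow, map_pow, smul_pow, ← inv_pow, map_pow]
  have main : ∀ m : ℕ, (∃ a : k, x ^ m + y ^ m = a • 1) ∧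
      ∃ b : k, x ^ (m + 1) + y ^ (m + 1) = b • 1 := by
    intro m
    induction m with
    | zero => exact ⟨⟨2, by simp [two_smul]⟩, ⟨t, by simpa using h⟩⟩
    | succ m ih =>
      obtain ⟨⟨a, ha⟩, ⟨b, hb⟩⟩ := ih
      refine ⟨⟨b, hb⟩, ⟨t * b - ω f * a, ?_⟩⟩
      have e : (x + y) * (x ^ (m + 1) + y ^ (m + 1)) =
          x ^ (m + 2) + y ^ (m + 2) + ω f • (x ^ m + y ^ m) := by
        simp only [add_mul, mul_add, pow_succ', ← mul_assoc, hxy, hyx, smul_mul_assoc, one_mul,
          smul_add]
        abel
      rw [h, hb, ha, smul_mul_smul_comm, mul_one, smul_smul] at e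
      rw [sub_smul, e, add_sub_cancel_right]
  obtain ⟨⟨a, ha⟩, -⟩ := main n
  exact ⟨a, (key n).trans ha⟩

end Quad

section Scalar

variable {k : Type*} [Field k] {W : Type*} [AddCommGroup W] [Module k W]

lemma smul_one_injective [Nontrivial W] {a b : k}
    (h : a • (1 : Module.End k W) = b • 1) : a = b :=
  smul_left_injective k (one_ne_zero (α := Module.End k W)) h

/-- On a plane, a quadratic relation of a non-scalar operator is its characteristic one. -/
lemma trace_det_of_quadratic (hd : finrank k W = 2) {x : Module.End k W} {t n : k}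
    (hx : x * x - t • x + n • (1 : Module.End k W) = 0)
    (hns : ∀ c : k, x ≠ c • 1) :
    LinearMap.trace k W x = t ∧ LinearMap.det x = n := by
  have : Module.Finite k W := Module.finite_of_finrank_eq_succ hd
  let b := Module.finBasisOfFinrankEq k W hd
  have hch : x.charpoly = X ^ 2 - C (LinearMap.trace k W x) * X + C (LinearMap.det x) := by
    rw [← LinearMap.charpoly_toMatrix x b, Matrix.charpoly_fin_two,
      ← LinearMap.trace_eq_matrix_trace k b x, LinearMap.det_toMatrix b x]
  have hzero := LinearMap.aeval_self_charpoly x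
  rw [hch] at hzero
  simp only [map_add, map_sub, map_mul, aeval_X, aeval_C,
    Algebra.algebraMap_eq_smul_one, smul_mul_assoc, one_mul, pow_two] at hzero
  set T := LinearMap.trace k W x
  set D := LinearMap.det x
  have hdiff : (t - T) • x + (D - n) • (1 : Module.End k W) = 0 := by
    have := congrArg₂ (fun u v => u - v) hzero hx
    simp only [sub_zero] at this
    rw [sub_smul, sub_smul, ← this]
    abel
  by_cases hT : t = T
  · have : Nontrivial W := Module.nontrivial_of_finrank_eq_succ hd
    refine ⟨hT.symm, ?_⟩
    rw [hT, sub_self, zero_smul, zero_add, sub_smul, sub_eq_zero] at hdiff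
    exact smul_one_injective hdiff
  · exfalso
    refine hns ((t - T)⁻¹ * (n - D)) ?_
    rw [← smul_smul]
    rw [eq_inv_smul_iff₀ (sub_ne_zero.mpr hT), eq_sub_of_add_eq hdiff, zero_sub, ← neg_smul,
      neg_sub]

lemma trace_det_smul_one (hd : finrank k W = 2) (c : k) :
    LinearMap.trace k W (c • (1 : Module.End k W)) = 2 * c ∧
      LinearMap.det (c • (1 : Module.End k W)) = c * c := by
  have : Module.Finite k W := Module.finite_of_finrank_eq_succ hd
  constructor
  · rw [map_smul, LinearMap.trace_one, hd, smul_eq_mul]
    push_cast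
    ring
  · rw [LinearMap.det_smul, hd, map_one, mul_one, pow_two]

end Scalar

section Algebra

variable {k : Type*} [Field k] {G : Type*} [Group G] {W : Type*} [AddCommGroup W] [Module k W]

/-- The span of the image of a representation. -/
def repSpan (ρ : G →* Module.End k W) : Submodule k (Module.End k W) :=
  Submodule.span k (Set.range ρ)

lemma mem_repSpan (ρ : G →* Module.End k W) (g : G) : ρ g ∈ repSpan ρ :=
  Submodule.subset_span (Set.mem_range_self g)

lemma mul_mem_repSpan (ρ : G →* Module.End k W) {a b : Module.End k W}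
    (ha : a ∈ repSpan ρ) (hb : b ∈ repSpan ρ) : a * b ∈ repSpan ρ := by
  induction ha using Submodule.span_induction with
  | mem x hx =>
    obtain ⟨g, rfl⟩ := hx
    induction hb using Submodule.span_induction with
    | mem y hy =>
      obtain ⟨h, rfl⟩ := hy
      rw [← map_mul]
      exact mem_repSpan ρ _
    | zero => simp
    | add _ _ _ _ h1 h2 => rw [mul_add]; exact add_mem h1 h2
    | smul c _ _ h1 => rw [mul_smul_comm]; exact Submodule.smul_mem _ c h1
  | zero => simp
  | add _ _ _ _ h1 h2 => rw [add_mul]; exact add_mem h1 h2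
  | smul c _ _ h1 => rw [smul_mul_assoc]; exact Submodule.smul_mem _ c h1

/-- The image algebra of a representation. -/
def repAlgebra (ρ : G →* Module.End k W) : Subalgebra k (Module.End k W) :=
  (repSpan ρ).toSubalgebra (by rw [← map_one ρ]; exact mem_repSpan ρ 1)
    (fun _ _ ha hb => mul_mem_repSpan ρ ha hb)

lemma mem_repAlgebra_iff {ρ : G →* Module.End k W} {a : Module.End k W} :
    a ∈ repAlgebra ρ ↔ a ∈ repSpan ρ := Iff.rfl

/-- Linear extension of `g ↦ t g` to the span, when the relations allow it. -/
lemma exists_linear_of_quadRel [Nontrivial W] (ρ : G →* Module.End k W) (ω : G →* k) (t : G → k)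
    (ht : ∀ g, QuadRel ρ ω g (t g)) (hns : ∃ g, ∀ c : k, ρ g ≠ c • 1) :
    ∃ T : Module.End k W →ₗ[k] k, ∀ g, T (ρ g) = t g := by
  simp only [quadRel_iff] at ht
  let Φ := Finsupp.linearCombination k (ρ : G → Module.End k W)
  let Ψ := Finsupp.linearCombination k (fun g => ω g • ρ g⁻¹)
  let Θ := Finsupp.linearCombination k t
  have hsum : ∀ c : G →₀ k, Φ c + Ψ c = Θ c • (1 : Module.End k W) := by
    intro c
    induction c using Finsupp.induction_linear with
    | zero => simp
    | add c d hc hd => rw [map_add, map_add, map_add, add_add_add_comm, hc, hd, add_smul]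
    | single g a =>
      simp only [Φ, Ψ, Θ, Finsupp.linearCombination_single, smul_eq_mul, mul_smul, ← smul_add,
        ht g]
  have hker : ∀ c, Φ c = 0 → Θ c = 0 := by
    intro c hc
    by_contra hne
    obtain ⟨h, hh⟩ := hns
    let c' := Finsupp.mapDomain (· * h) c
    have h1 : Φ c' = Φ c * ρ h := by
      simp only [Φ, c', Finsupp.linearCombination_mapDomain]
      simp only [Finsupp.linearCombination_apply, Function.comp_apply, map_mul, Finsupp.sum,
        Finset.sum_mul, smul_mul_assoc]
    have h2 : Ψ c' = (ω h • ρ h⁻¹) * Ψ c := by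
      simp only [Ψ, c', Finsupp.linearCombination_mapDomain]
      simp only [Finsupp.linearCombination_apply, Function.comp_apply, map_mul, mul_inv_rev,
        Finsupp.sum, Finset.mul_sum, smul_mul_assoc, mul_smul_comm, smul_smul]
      refine Finset.sum_congr rfl fun i _ => ?_
      congr 1
      ring
    have h3 := hsum c
    rw [hc, zero_add] at h3
    have h4 := hsum c'
    rw [h1, hc, zero_mul, zero_add, h2, h3, mul_smul_comm, mul_one] at h4
    have h5 : ω h • ρ h⁻¹ = (Θ c' / Θ c) • (1 : Module.End k W) := by
      rw [div_eq_inv_mul, ← smul_smul, ← h4, inv_smul_smul₀ hne]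
    refine hh (t h - Θ c' / Θ c) ?_
    rw [sub_smul, ← h5]
    exact eq_sub_of_add_eq (ht h)
  let e := Φ.quotKerEquivRange
  let Θ' : (G →₀ k) ⧸ LinearMap.ker Φ →ₗ[k] k :=
    (LinearMap.ker Φ).liftQ Θ (fun c hc => hker c hc)
  obtain ⟨T, hT⟩ := LinearMap.exists_extend (Θ'.comp e.symm.toLinearMap)
  refine ⟨T, fun g => ?_⟩
  have hg : ρ g = Φ (Finsupp.single g 1) := by simp [Φ]
  have he : e.symm ⟨ρ g, ⟨Finsupp.single g 1, hg.symm⟩⟩ =
      Submodule.Quotient.mk (Finsupp.single g 1) := by
    rw [LinearEquiv.symm_apply_eq]
    exact Subtype.ext (hg.trans (LinearMap.quotKerEquivRange_apply_mk Φ _).symm)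
  have := DFunLike.congr_fun hT ⟨ρ g, ⟨Finsupp.single g 1, hg.symm⟩⟩
  simp only [LinearMap.comp_apply, LinearEquiv.coe_coe, he, Θ'] at this
  change T (ρ g) = Θ (Finsupp.single g 1) at this
  simpa [Θ] using this

/-- The polarised relation: `a b + b a - T a b - T b a` is scalar on the span. -/
lemma polar_relation (ρ : G →* Module.End k W) (ω : G →* k) (t : G → k)
    (ht : ∀ g, QuadRel ρ ω g (t g)) (T : Module.End k W →ₗ[k] k) (hT : ∀ g, T (ρ g) = t g) :
    ∀ a ∈ repSpan ρ, ∀ b ∈ repSpan ρ, ∀ v : W,
      a (b v) + b (a v) = T a • b v + T b • a v + (T (a * b) - T a * T b) • v := by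
  have hσ : ∀ g, T (ρ g) • (1 : Module.End k W) - ρ g = ω g • ρ g⁻¹ := by
    intro g
    rw [hT, sub_eq_iff_eq_add', quadRel_iff.mp (ht g)]
  -- `a ↦ T a - a` is anti-multiplicative on the span
  have hanti : ∀ a ∈ repSpan ρ, ∀ b ∈ repSpan ρ,
      T (a * b) • (1 : Module.End k W) - a * b =
        (T b • (1 : Module.End k W) - b) * (T a • (1 : Module.End k W) - a) := by
    intro a ha b hb
    induction ha using Submodule.span_induction with
    | mem x hx =>
      obtain ⟨g, rfl⟩ := hx
      induction hb using Submodule.span_induction with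
      | mem y hy =>
        obtain ⟨h, rfl⟩ := hy
        rw [← map_mul, hσ, hσ, hσ, smul_mul_smul_comm]
        simp only [mul_inv_rev, map_mul, mul_comm (ω g)]
      | zero => simp
      | add _ _ _ _ h1 h2 =>
        simp only [mul_add, map_add, add_smul, add_sub_add_comm, h1, h2, add_mul]
      | smul c _ _ h1 =>
        simp only [mul_smul_comm, map_smul, smul_assoc, ← smul_sub, h1, smul_mul_assoc]
    | zero => simp
    | add _ _ _ _ h1 h2 =>
      simp only [add_mul, map_add, add_smul, add_sub_add_comm, h1, h2, mul_add]
    | smul c _ _ h1 =>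
      simp only [smul_mul_assoc, map_smul, smul_assoc, ← smul_sub, h1, mul_smul_comm]
  intro a ha b hb v
  have h := congrArg (fun f : Module.End k W => f v) (hanti a ha b hb)
  simp only [LinearMap.sub_apply, LinearMap.smul_apply, Module.End.one_apply, mul_sub,
    sub_mul, smul_mul_assoc, mul_smul_comm, one_mul, mul_one, Module.End.mul_apply,
    smul_sub, smul_smul] at h
  rw [sub_smul, mul_comm (T a)]
  linear_combination (norm := module) -h

end Algebra

section Plane

variable {k : Type*} [Field k] {W : Type*} [AddCommGroup W] [Module k W]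
  {D : Type*} [Field D] [Algebra k D] [Module D W] [IsScalarTower k D W]

/-- If `D`-linear maps satisfy the polarised relation and the `D`-dimension is at least `2`, then
`D = k` and the dimension is at most `2`. -/
lemma finrank_le_two_of_polar_of_card (T : Module.End k W →ₗ[k] k)
    (hpol : ∀ f f' : Module.End D W, ∀ v : W,
      f (f' v) + f' (f v) = T (f.restrictScalars k) • f' v + T (f'.restrictScalars k) • f v +
        (T (f.restrictScalars k * f'.restrictScalars k) -
          T (f.restrictScalars k) * T (f'.restrictScalars k)) • v)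
    {n : ℕ} (b : Basis (Fin n) D W) (hn : 2 ≤ n) :
    n = 2 ∧ finrank k D = 1 := by
  let i : Fin n := ⟨0, by omega⟩
  let j : Fin n := ⟨1, by omega⟩
  have hij : i ≠ j := by simp [i, j]
  have key : ∀ c : D, ∃ s : k, algebraMap k D s = c ∧ ∀ m, m ≠ i → m ≠ j → s = 0 := by
    intro c
    let f : Module.End D W := b.constr D (fun m => if m = j then c • b i else 0)
    let f' : Module.End D W := b.constr D (fun m => if m = i then b j else 0)
    have hf : ∀ m, f (b m) = if m = j then c • b i else 0 := fun m => b.constr_basis D _ m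
    have hf' : ∀ m, f' (b m) = if m = i then b j else 0 := fun m => b.constr_basis D _ m
    refine ⟨T (f.restrictScalars k * f'.restrictScalars k) -
      T (f.restrictScalars k) * T (f'.restrictScalars k), ?_, ?_⟩
    · have h' := congrArg (fun v => b.repr v i) (hpol f f' (b i))
      simp only [hf, hf', hij, if_true, if_false, map_zero, add_zero, smul_zero] at h'
      rw [← IsScalarTower.algebraMap_smul D (T _) (b j),
        ← IsScalarTower.algebraMap_smul D (_ - _ * _) (b i)] at h'
      have h0 : ∀ a : k, b.repr (a • b j) i = 0 := fun a => by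
        rw [← IsScalarTower.algebraMap_smul D a (b j), map_smul]
        simp [Finsupp.single_eq_of_ne hij]
      simpa [hij, h0] using h'.symm
    · intro m hmi hmj
      have h' := hpol f f' (b m)
      simp only [hf, hf', hmi, hmj, if_false, map_zero, add_zero, smul_zero, zero_add] at h'
      exact (smul_eq_zero.mp h'.symm).resolve_right (b.ne_zero m)
  refine ⟨?_, ?_⟩
  · by_contra hne
    obtain ⟨s, hs, hs'⟩ := key 1
    rw [hs' ⟨2, by omega⟩ (by simp [i]) (by simp [j]), map_zero] at hs
    exact zero_ne_one hs
  · refine (finrank_eq_one_iff_of_nonzero' (1 : D) one_ne_zero).mpr fun c => ?_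
    obtain ⟨s, hs, -⟩ := key c
    exact ⟨s, by rw [← Algebra.algebraMap_eq_smul_one, hs]⟩

/-- A finite field extension in which a polarised quadratic identity holds is quadratic, unless
the characteristic is `2` and the linear form vanishes. -/
lemma finrank_le_two_of_polar_field [Finite D] (L : D → k) (M : D → D → k)
    (hrel : ∀ c d : D, 2 * (c * d) = algebraMap k D (L c) * d + algebraMap k D (L d) * c +
      algebraMap k D (M c d))
    (hne : (2 : k) = 0 → ∃ d, L d ≠ 0) :
    finrank k D ≤ 2 := by
  by_cases hchar : (2 : k) = 0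
  · obtain ⟨d, hd⟩ := hne hchar
    let u : Fin 2 → D := ![1, d]
    suffices Submodule.span k (Set.range u) = ⊤ by
      have h := finrank_range_le_card (R := k) u
      unfold Set.finrank at h
      rw [this, finrank_top, Fintype.card_fin] at h
      exact h
    rw [Submodule.eq_top_iff']
    intro c
    have h := hrel c d
    have h20 : (2 : D) = 0 := by rw [← map_ofNat (algebraMap k D) 2, hchar, map_zero]
    rw [h20, zero_mul] at h
    rw [Submodule.mem_span_range_iff_exists_fun]
    refine ⟨![-(M c d / L d), -(L c / L d)], ?_⟩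
    have hd' : algebraMap k D (L d) ≠ 0 := by simpa using hd
    simp only [u, Fin.sum_univ_two, Matrix.cons_val_zero, Matrix.cons_val_one,
      Algebra.smul_def, map_neg, map_div₀, mul_one]
    field_simp
    linear_combination h
  · obtain ⟨α, hα⟩ := Field.exists_primitive_element_of_finite_top k D
    have : FiniteDimensional k D := Module.Finite.of_finite
    have hαi : IsIntegral k α := IsIntegral.of_finite k α
    rw [← IntermediateField.finrank_top', ← hα, IntermediateField.adjoin.finrank hαi]
    let p : k[X] := X ^ 2 - C (L α) * X - C (M α α / 2)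
    have hp : p.Monic := by simp only [p]; monicity!
    have hpdeg : p.natDegree = 2 := by simp only [p]; compute_degree!
    have h2D : (2 : D) ≠ 0 := by
      rw [← map_ofNat (algebraMap k D) 2]
      simpa using hchar
    have hpα : aeval α p = 0 := by
      have h := hrel α α
      simp only [p, map_sub, map_mul, map_pow, aeval_X, aeval_C, map_div₀, map_ofNat]
      field_simp
      linear_combination h
    exact hpdeg ▸ natDegree_le_of_dvd (minpoly.dvd k α hpα) hp.ne_zero

end Plane

section Simple

variable {k : Type*} [Field k] {G : Type*} [Group G] {W : Type*} [AddCommGroup W] [Module k W]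

/-- On an irreducible representation with quadratic relations over a finite field which is not
scalar, the dimension is at most two. -/
lemma finrank_le_two_of_quadRel [Finite k] [FiniteDimensional k W]
    (ρ : G →* Module.End k W) (ω : G →* k) (t : G → k) (ht : ∀ g, QuadRel ρ ω g (t g))
    [IsSimpleModule (repAlgebra ρ) W] (T : Module.End k W →ₗ[k] k) (hT : ∀ g, T (ρ g) = t g)
    (hns : ∃ g, ∀ c : k, ρ g ≠ c • 1) :
    finrank k W ≤ 2 := by
  classical
  have hpol := polar_relation ρ ω t ht T hT
  let A := repAlgebra ρ
  have : Finite W := Module.finite_of_finite k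
  let D := Module.End A W
  have : Finite D := Finite.of_injective _ DFunLike.coe_injective
  let : Field D := littleWedderburn D
  have hdense : ∀ f : Module.End D W, f.restrictScalars k ∈ repSpan ρ := by
    intro f
    cases nonempty_fintype W
    obtain ⟨r, hr⟩ := jacobson_density f Finset.univ
    have : f.restrictScalars k = (r : Module.End k W) :=
      LinearMap.ext fun v => (hr v (Finset.mem_univ v)).trans rfl
    rw [this]
    exact r.2
  have : Module.Finite D W := Module.Finite.of_finite
  let b := Module.finBasis D W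
  have hmul : finrank k D * finrank D W = finrank k W := Module.finrank_mul_finrank k D W
  have hpolD : ∀ f f' : Module.End D W, ∀ v : W, _ := fun f f' v =>
    hpol _ (hdense f) _ (hdense f') v
  simp only [LinearMap.coe_restrictScalars] at hpolD
  rcases le_or_gt 2 (finrank D W) with h2 | h2
  · obtain ⟨h1, h1'⟩ := finrank_le_two_of_polar_of_card T hpolD b h2
    rw [h1, h1'] at hmul
    omega
  · have hWnt : Nontrivial W := IsSimpleModule.nontrivial A W
    have hone : finrank D W = 1 := le_antisymm (by omega) Module.finrank_pos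
    obtain ⟨e, he0, he⟩ := finrank_eq_one_iff'.mp hone
    have hcancel : Function.Injective fun c : D => c • e := smul_left_injective D he0
    have hform : ∀ a ∈ repSpan ρ, ∃ c : D, ∀ v, a v = c • v := by
      intro a ha
      obtain ⟨c, hc⟩ := he (a e)
      refine ⟨c, fun v => ?_⟩
      obtain ⟨d, rfl⟩ := he v
      have hd : d (a e) = a (d e) := d.map_smul (⟨a, ha⟩ : A) e
      change a (d e) = c • d • e
      rw [← hd, ← hc]
      change d • c • e = c • d • e
      rw [smul_smul, smul_smul, mul_comm]
    let ν : D → Module.End D W := fun c => c • LinearMap.id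
    let μ : D → Module.End k W := fun c => (ν c).restrictScalars k
    have hle : finrank k D ≤ 2 := by
      refine finrank_le_two_of_polar_field (fun c => T (μ c))
        (fun c d => T (μ c * μ d) - T (μ c) * T (μ d)) (fun c d => hcancel ?_) fun hchar => ?_
      · have h := hpolD (ν c) (ν d) e
        simp only [ν, LinearMap.smul_apply, LinearMap.id_apply] at h
        simp only [add_smul, mul_smul, algebraMap_smul, two_mul]
        rw [smul_comm d c] at h
        exact h
      · by_contra hex
        push Not at hex
        obtain ⟨g, hg⟩ := hns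
        obtain ⟨c, hc⟩ := hform (ρ g) (mem_repSpan ρ g)
        have hμc : μ c = ρ g := LinearMap.ext fun v => (hc v).symm
        have htg : t g = 0 := by rw [← hT, ← hμc, hex]
        have hq : QuadRel ρ ω g 0 := htg ▸ ht g
        have hcc : c * c = algebraMap k D (-(ω g)) := by
          apply hcancel
          have h := congrArg (fun f : Module.End k W => f e) hq
          simp only [LinearMap.add_apply, zero_smul, sub_zero, LinearMap.smul_apply,
            Module.End.one_apply, Module.End.mul_apply, hc, LinearMap.zero_apply] at h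
          simp only [mul_smul, algebraMap_smul, neg_smul]
          exact eq_neg_of_add_eq_zero_left h
        have hk2 : CharP k 2 := CharTwo.of_one_ne_zero_of_two_eq_zero one_ne_zero hchar
        have : CharP D 2 := charP_of_injective_algebraMap' k 2
        obtain ⟨c1, hc1⟩ := FiniteField.isSquare_of_char_two
          (ringChar.eq_iff.mpr hk2) (-(ω g))
        have hceq : c = algebraMap k D c1 := by
          have h0 : (c - algebraMap k D c1) * (c - algebraMap k D c1) = 0 := by
            rw [← pow_two, sub_pow_char, pow_two, pow_two, hcc, ← map_mul, ← hc1, sub_self]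
          exact sub_eq_zero.mp (mul_self_eq_zero.mp h0)
        exact hg c1 (LinearMap.ext fun v => by
          rw [hc, hceq, algebraMap_smul, LinearMap.smul_apply, Module.End.one_apply])
    rw [hone, mul_one] at hmul
    omega

end Simple

section Main

variable {k : Type*} [Field k] {G : Type*} [Group G]

/-- Irreducible case. -/
lemma exists_matrixRep_of_simple [Finite k] {W : Type*} [AddCommGroup W] [Module k W]
    [FiniteDimensional k W] (ρ : G →* Module.End k W) (ω : G →* k)
    (h : ∀ g, ∃ t, QuadRel ρ ω g t) [IsSimpleModule (repAlgebra ρ) W] :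
    ∃ r : G →* Matrix (Fin 2) (Fin 2) k,
      (∀ g, ρ g = 1 → ω g = 1 → r g = 1) ∧
      (∀ g, (r g).det = ω g) ∧
      ∀ g t, QuadRel ρ ω g t → (r g).charpoly = X ^ 2 - C t * X + C (ω g) := by
  classical
  have hWnt : Nontrivial W := IsSimpleModule.nontrivial (repAlgebra ρ) W
  choose t ht using h
  have tuniq : ∀ g s, QuadRel ρ ω g s → s = t g := fun g s hs =>
    smul_one_injective ((quadRel_iff.mp hs).symm.trans (quadRel_iff.mp (ht g)))
  by_cases hns : ∃ g, ∀ c : k, ρ g ≠ c • 1
  · obtain ⟨T, hT⟩ := exists_linear_of_quadRel ρ ω t ht hns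
    have hd : finrank k W = 2 := by
      refine le_antisymm (finrank_le_two_of_quadRel ρ ω t ht T hT hns) ?_
      by_contra hlt
      have h1 : finrank k W = 1 := by
        have := Module.finrank_pos (R := k) (M := W)
        omega
      obtain ⟨g, hg⟩ := hns
      obtain ⟨e, he0, he⟩ := finrank_eq_one_iff'.mp h1
      obtain ⟨c, hc⟩ := he (ρ g e)
      refine hg c (LinearMap.ext fun v => ?_)
      obtain ⟨d, rfl⟩ := he v
      rw [map_smul, LinearMap.smul_apply, Module.End.one_apply, ← hc, smul_comm]
    let b := Module.finBasisOfFinrankEq k W hd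
    let e := LinearMap.toMatrixAlgEquiv b
    refine ⟨(e : Module.End k W →* Matrix (Fin 2) (Fin 2) k).comp ρ, ?_, ?_, ?_⟩
    · intro g hg _
      simp [hg]
    all_goals
      have key : ∀ g, LinearMap.trace k W (ρ g) = t g ∧ LinearMap.det (ρ g) = ω g := by
        intro g
        by_cases hs : ∃ c : k, ρ g = c • 1
        · obtain ⟨c, hc⟩ := hs
          have hT1 : T 1 = 2 := by
            rw [← map_one ρ, hT]
            refine (tuniq 1 2 (quadRel_iff.mpr ?_)).symm
            rw [inv_one, map_one, map_one, one_smul, two_smul]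
          have htg : t g = 2 * c := by
            rw [← hT, hc, map_smul, hT1, smul_eq_mul, mul_comm]
          have hq := ht g
          unfold QuadRel at hq
          rw [hc, htg, smul_mul_smul_comm, mul_one, smul_smul, ← sub_smul, ← add_smul] at hq
          have h0 := (smul_eq_zero.mp hq).resolve_right one_ne_zero
          obtain ⟨h1, h2⟩ := trace_det_smul_one hd c
          rw [hc, h1, h2, htg]
          exact ⟨rfl, by linear_combination -h0⟩
        · push Not at hs
          exact trace_det_of_quadratic hd (ht g) hs
    · intro g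
      rw [← (key g).2]
      exact LinearMap.det_toMatrix b (ρ g)
    · intro g s hs
      rw [Matrix.charpoly_fin_two, tuniq g s hs]
      have h1 : (LinearMap.toMatrix b b (ρ g)).trace = t g := by
        rw [← LinearMap.trace_eq_matrix_trace k b (ρ g), (key g).1]
      have h2 : (LinearMap.toMatrix b b (ρ g)).det = ω g := by
        rw [LinearMap.det_toMatrix b (ρ g), (key g).2]
      rw [← h1, ← h2]
      rfl
  · push Not at hns
    choose χ hχ using hns
    have hmul : ∀ g h, χ (g * h) = χ g * χ h := fun g h => by
      apply smul_one_injective (W := W)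
      rw [← hχ, map_mul, hχ, hχ, smul_mul_smul_comm, mul_one]
    have h1 : χ 1 = 1 := by
      apply smul_one_injective (W := W)
      rw [← hχ, map_one, one_smul]
    let χ' : G →* k := ⟨⟨χ, h1⟩, hmul⟩
    have hne : ∀ g, χ g ≠ 0 := fun g => char_ne_zero χ' g
    let r : G →* Matrix (Fin 2) (Fin 2) k :=
      { toFun := fun g => Matrix.diagonal ![χ g, ω g / χ g]
        map_one' := by
          ext i j
          fin_cases i <;> fin_cases j <;> simp [h1]
        map_mul' := fun g h => by
          rw [Matrix.diagonal_mul_diagonal]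
          congr 1
          funext i
          fin_cases i
          · simp [hmul]
          · simp [hmul, div_mul_div_comm] }
    refine ⟨r, ?_, ?_, ?_⟩
    · intro g hg hω
      have : χ g = 1 := smul_one_injective (W := W) (by rw [← hχ, hg, one_smul])
      ext i j
      fin_cases i <;> fin_cases j <;> simp [r, this, hω]
    · intro g
      simp [r, Matrix.det_diagonal, Fin.prod_univ_two, mul_div_cancel₀ _ (hne g)]
    · intro g s hs
      rw [Matrix.charpoly_fin_two]
      unfold QuadRel at hs
      rw [hχ g, smul_mul_smul_comm, mul_one, smul_smul, ← sub_smul, ← add_smul] at hs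
      have h0 := (smul_eq_zero.mp hs).resolve_right one_ne_zero
      have e1 : χ g + ω g / χ g = s := by
        have := hne g
        field_simp
        linear_combination h0
      simp [r, Matrix.det_diagonal, Matrix.trace_diagonal, Fin.sum_univ_two, Fin.prod_univ_two,
        mul_div_cancel₀ _ (hne g), e1]

/-- **Main lemma.** -/
theorem exists_matrixRep_of_quadRel [Finite k] {V : Type*} [AddCommGroup V] [Module k V]
    [FiniteDimensional k V] [Nontrivial V] (ρ : G →* Module.End k V) (ω : G →* k)
    (h : ∀ g, ∃ t, QuadRel ρ ω g t) :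
    ∃ r : G →* Matrix (Fin 2) (Fin 2) k,
      (∀ g, ρ g = 1 → ω g = 1 → r g = 1) ∧
      (∀ g, (r g).det = ω g) ∧
      ∀ g t, QuadRel ρ ω g t → (r g).charpoly = X ^ 2 - C t * X + C (ω g) := by
  classical
  let A := repAlgebra ρ
  have : Finite V := Module.finite_of_finite k
  have : IsArtinian A V := inferInstance
  obtain ⟨m, hm⟩ := IsAtomic.exists_atom (Submodule A V)
  have : IsSimpleModule A m := isSimpleModule_iff_isAtom.mpr hm
  let W : Submodule k V := m.restrictScalars k
  have hinv : ∀ g, ∀ v ∈ W, ρ g v ∈ W := fun g v hv =>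
    m.smul_mem (⟨ρ g, mem_repSpan ρ g⟩ : A) hv
  let σ : G →* Module.End k W :=
    { toFun := fun g => (ρ g).restrict (hinv g)
      map_one' := by ext v; simp
      map_mul' := fun g h => by ext v; simp }
  have hrel : ∀ g t, QuadRel ρ ω g t → QuadRel σ ω g t := by
    intro g t hq
    refine LinearMap.ext fun v => Subtype.ext ?_
    have := congrArg (fun f : Module.End k V => f (v : V)) hq
    simpa [σ, QuadRel] using this
  have : IsSimpleModule (repAlgebra σ) W := by
    have hWnt : Nontrivial W := (IsSimpleModule.nontrivial A m : Nontrivial m)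
    refine (isSimpleModule_iff _ _).mpr ⟨fun U => ?_⟩
    let U' : Submodule A V :=
      { carrier := {v | ∃ hv : v ∈ W, (⟨v, hv⟩ : W) ∈ U}
        add_mem' := fun ⟨ha, ha'⟩ ⟨hb, hb'⟩ => ⟨add_mem ha hb, U.add_mem ha' hb'⟩
        zero_mem' := ⟨W.zero_mem, U.zero_mem⟩
        smul_mem' := by
          rintro ⟨a, ha⟩ v ⟨hv, hv'⟩
          change ∃ hv : a v ∈ W, (⟨a v, hv⟩ : W) ∈ U
          have haS : a ∈ Submodule.span k (Set.range ρ) := ha
          clear ha
          induction haS using Submodule.span_induction with
          | mem x hx =>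
            obtain ⟨g, rfl⟩ := hx
            exact ⟨hinv g v hv, U.smul_mem (⟨σ g, mem_repSpan σ g⟩ : repAlgebra σ) hv'⟩
          | zero => exact ⟨W.zero_mem, U.zero_mem⟩
          | add _ _ _ _ h1 h2 =>
            exact ⟨add_mem h1.1 h2.1, U.add_mem h1.2 h2.2⟩
          | smul c _ _ h1 =>
            exact ⟨W.smul_mem c h1.1, U.smul_of_tower_mem c h1.2⟩ }
    have hle : U' ≤ m := fun v hv => hv.1
    rcases hm.le_iff.mp hle with hU | hU
    · left
      refine (Submodule.eq_bot_iff U).mpr fun v hv => Subtype.ext ?_
      have : (v : V) ∈ U' := ⟨v.2, hv⟩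
      rw [hU] at this
      simpa using this
    · right
      refine Submodule.eq_top_iff'.mpr fun v => ?_
      have : (v : V) ∈ U' := hU.symm ▸ v.2
      exact this.2
  obtain ⟨r, hr1, hr2, hr3⟩ := exists_matrixRep_of_simple σ ω fun g =>
    ⟨_, hrel g _ (h g).choose_spec⟩
  exact ⟨r, fun g hg hω => hr1 g (LinearMap.ext fun v => Subtype.ext (by simp [σ, hg])) hω,
    hr2, fun g t hq => hr3 g t (hrel g t hq)⟩

/-- Version where only a set of elements, whose powers exhaust the group, satisfy relations. -/
theorem exists_matrixRep_of_pow [Finite k] {V : Type*} [AddCommGroup V] [Module k V]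
    [FiniteDimensional k V] [Nontrivial V] (ρ : G →* Module.End k V) (ω : G →* k) (F : Set G)
    (hF : ∀ f ∈ F, ∃ t, QuadRel ρ ω f t)
    (hpow : ∀ g, ∃ f ∈ F, ∃ n : ℕ, ρ g = ρ (f ^ n) ∧ ω g = ω (f ^ n)) :
    ∃ r : G →* Matrix (Fin 2) (Fin 2) k,
      (∀ g, ρ g = 1 → ω g = 1 → r g = 1) ∧
      (∀ g, (r g).det = ω g) ∧
      ∀ g t, QuadRel ρ ω g t → (r g).charpoly = X ^ 2 - C t * X + C (ω g) := by
  refine exists_matrixRep_of_quadRel ρ ω fun g => ?_
  obtain ⟨f, hf, n, h1, h2⟩ := hpow g
  obtain ⟨t, ht⟩ := hF f hf
  obtain ⟨s, hs⟩ := exists_quadRel_pow ht n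
  refine ⟨s, ?_⟩
  unfold QuadRel at hs ⊢
  rwa [h1, h2]

end Main

end Fermat.Agent.GaloisMod
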