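/-
A residual Galois representation from a module over a commutative ring with Galois action,
quadratic Frobenius relations and a non-zero `m`-torsion element.
-/
import Fermat.Agent.GaloisMod.QuadraticRep
import Fermat.Agent.Density.Main
import Fermat.Agent.Galois.QbarInstances
import Fermat.Prelude.Def_GaloisRep_Residual

set_option autoImplicit false

noncomputable section

namespace Fermat.Agent.GaloisMod

open Polynomial

local notation "ℚbar" => AlgebraicClosure ℚ
local notation "Γℚ" => AlgebraicClosure ℚ ≃ₐ[ℚ] AlgebraicClosure ℚ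

/-- The two-dimensional representation over `k` attached to a character `ψ` of `T`, a module `W`
with non-zero `ker ψ`-torsion and quadratic Frobenius relations. -/
theorem exists_residualRep_of_module {T : Type*} [CommRing T] {W : Type*} [AddCommGroup W]
    [Module T W] [Finite W] {k : Type} [Field k] (ψ : T →+* k) (hmax : (RingHom.ker ψ).IsMaximal)
    (hne : ∃ x : W, x ≠ 0 ∧ ∀ t ∈ RingHom.ker ψ, t • x = 0)
    (act : Γℚ →* Module.End T W) (ω : Γℚ →* T ⧸ RingHom.ker ψ) (S : Finset ℕ) (a : Nat.Primes → T)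
    (L : IntermediateField ℚ ℚbar) [FiniteDimensional ℚ L]
    (hLact : ∀ σ : Γℚ, (∀ y ∈ L, σ y = y) → act σ = 1)
    (hLω : ∀ σ : Γℚ, (∀ y ∈ L, σ y = y) → ω σ = 1)
    (hfrob : ∀ q : Nat.Primes, (q : ℕ) ∉ S → ∀ A : ValuationSubring ℚbar, A.LiesOverPrime q →
      ∀ τ : Γℚ, A.IsFrobeniusAt τ q →
        ω τ = ((q : ℕ) : T ⧸ RingHom.ker ψ) ∧
          ∀ x : W, act τ (act τ x) - a q • act τ x + (q : ℕ) • x = 0) :
    ∃ ρ : ResidualGaloisRep k,
      (∀ q : Nat.Primes, (q : ℕ) ∉ S →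
        ∀ A : ValuationSubring ℚbar, A.LiesOverPrime q → ∀ τ : Γℚ, A.IsFrobeniusAt τ q →
          LinearMap.charpoly (ρ.ρ τ) = X ^ 2 - C (ψ (a q)) * X + C (((q : ℕ) : k))) ∧
      ∀ σ : Γℚ, act σ = 1 → ω σ = 1 → ρ.ρ σ = 1 := by
  classical
  let : Field (T ⧸ RingHom.ker ψ) := Ideal.Quotient.field (RingHom.ker ψ)
  let V := Submodule.torsionBySet T W ((RingHom.ker ψ) : Set T)
  obtain ⟨x₀, hx₀, hx₀'⟩ := hne
  have : Nontrivial V := ⟨⟨x₀, (Submodule.mem_torsionBySet_iff _ _).mpr fun t => hx₀' t.1 t.2⟩,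
    0, fun h => hx₀ (congrArg Subtype.val h)⟩
  have : Finite V := inferInstance
  have : Module.Finite (T ⧸ RingHom.ker ψ) V := Module.Finite.of_finite
  have : Finite (T ⧸ RingHom.ker ψ) := by
    refine Finite.of_injective (fun c (v : V) => c • v) fun c d hcd => ?_
    by_contra hne
    obtain ⟨v, hv⟩ := exists_ne (0 : V)
    have h : c • v = d • v := congrFun hcd v
    exact hv ((smul_eq_zero.mp (by rw [sub_smul, h, sub_self] : (c - d) • v = 0)).resolve_left
      (sub_ne_zero.mpr hne))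
  have hmem : ∀ (σ : Γℚ) (v : V), act σ (v : W) ∈ V := fun σ v =>
    (Submodule.mem_torsionBySet_iff _ _).mpr fun t => by
      rw [← map_smul, (Submodule.mem_torsionBySet_iff (s := ((RingHom.ker ψ) : Set T)) _).mp v.2 t, map_zero]
  let ρV : Γℚ →* Module.End (T ⧸ RingHom.ker ψ) V :=
    { toFun := fun σ =>
        { toFun := fun v => ⟨act σ (v : W), hmem σ v⟩
          map_add' := fun v w => Subtype.ext (map_add (act σ) _ _)
          map_smul' := fun c v => by
            obtain ⟨t, rfl⟩ := Ideal.Quotient.mk_surjective c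
            exact Subtype.ext (map_smul (act σ) t (v : W)) }
      map_one' := LinearMap.ext fun v => Subtype.ext (by
        show act 1 (v : W) = v
        rw [map_one]; rfl)
      map_mul' := fun σ τ => LinearMap.ext fun v => Subtype.ext (by
        show act (σ * τ) (v : W) = act σ (act τ (v : W))
        rw [map_mul]; rfl) }
  let j : T ⧸ RingHom.ker ψ →+* k := Ideal.Quotient.lift (RingHom.ker ψ) ψ fun t ht => ht
  have hrel : ∀ q : Nat.Primes, (q : ℕ) ∉ S →
      ∀ A : ValuationSubring ℚbar, A.LiesOverPrime q → ∀ τ : Γℚ, A.IsFrobeniusAt τ q →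
        QuadRel ρV ω τ (Ideal.Quotient.mk (RingHom.ker ψ) (a q)) := by
    intro q hq A hA τ hτ
    obtain ⟨h1, h2⟩ := hfrob q hq A hA τ hτ
    unfold QuadRel
    rw [h1]
    refine LinearMap.ext fun v => Subtype.ext ?_
    simp only [LinearMap.add_apply, LinearMap.sub_apply, LinearMap.smul_apply,
      Module.End.one_apply, Module.End.mul_apply, LinearMap.zero_apply, Nat.cast_smul_eq_nsmul]
    exact h2 (v : W)
  have hL : ∀ σ : Γℚ, (∀ y ∈ L, σ y = y) → ρV σ = 1 ∧ ω σ = 1 := fun σ hσ =>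
    ⟨LinearMap.ext fun v => Subtype.ext (by
        show act σ (v : W) = v
        rw [hLact σ hσ]; rfl),
      hLω σ hσ⟩
  have hpow : ∀ g : Γℚ, ∃ f ∈ {τ : Γℚ | ∃ t, QuadRel ρV ω τ t}, ∃ n : ℕ,
      ρV g = ρV (f ^ n) ∧ ω g = ω (f ^ n) := by
    intro g
    obtain ⟨ℓ, hℓ, hℓS, A, hA, τ, hτ, ⟨n, hn⟩, -⟩ := Density.exists_frobenius_pow g L S
    refine ⟨τ, ⟨_, hrel ⟨ℓ, hℓ⟩ hℓS A hA τ hτ⟩, n, ?_⟩
    obtain ⟨h1, h2⟩ := hL ((τ ^ n)⁻¹ * g) fun y hy => by
      rw [AlgEquiv.mul_apply, hn y hy, ← AlgEquiv.mul_apply, inv_mul_cancel, AlgEquiv.one_apply]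
    have hg : g = τ ^ n * ((τ ^ n)⁻¹ * g) := by group
    constructor
    · conv_lhs => rw [hg, map_mul, h1, mul_one]
    · conv_lhs => rw [hg, map_mul, h2, mul_one]
  obtain ⟨r, hr1, -, hr3⟩ := exists_matrixRep_of_pow ρV ω _ (fun f hf => hf) hpow
  -- extend scalars
  let M : Γℚ →* Matrix (Fin 2) (Fin 2) k := j.mapMatrix.toMonoidHom.comp r
  let ρk : Γℚ →* Module.End k (Fin 2 → k) :=
    ((Matrix.toLinAlgEquiv' (R := k) (n := Fin 2)) : Matrix (Fin 2) (Fin 2) k →* _).comp M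
  have htriv : ∀ σ : Γℚ, ρV σ = 1 → ω σ = 1 → ρk σ = 1 := fun σ h1 h2 => by
    simp [ρk, M, hr1 σ h1 h2]
  refine ⟨⟨Fin 2 → k, Module.finrank_fin_fun k, ρk,
    ⟨L, inferInstance, fun σ hσ => htriv σ (hL σ hσ).1 (hL σ hσ).2⟩⟩, ?_, ?_⟩
  · intro q hq A hA τ hτ
    show LinearMap.charpoly (ρk τ) = _
    have h := hr3 τ _ (hrel q hq A hA τ hτ)
    have h' : LinearMap.charpoly (ρk τ) = (M τ).charpoly := by
      rw [← LinearMap.charpoly_toMatrix (ρk τ) (Pi.basisFun k (Fin 2))]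
      rw [LinearMap.toMatrix_eq_toMatrix']
      exact congrArg Matrix.charpoly (LinearMap.toMatrix'_toLin' (M τ))
    rw [h']
    show ((r τ).map j).charpoly = _
    rw [Matrix.charpoly_map, h]
    simp [Polynomial.map_sub, j, (hfrob q hq A hA τ hτ).1]
  · intro σ h1 h2
    refine htriv σ (LinearMap.ext fun v => Subtype.ext ?_) h2
    show act σ (v : W) = v
    rw [h1]; rfl

end Fermat.Agent.GaloisMod
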