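/-
The residual representation attached to a character of the Hecke algebra with values in a field
of characteristic `p`, cut out of the `p`-torsion of `J₀(N)`.
-/
import Fermat.Agent.GaloisMod.Residual
import Fermat.Agent.GaloisAdic.Main
import Fermat.Agent.Torsion.Main
import Fermat.Agent.HeckeCohom.Action
import Fermat.Agent.Density.Main
import Fermat.Agent.Galois.QbarInstances
import Fermat.Prelude.Def_GaloisRep_Residual
import Mathlib.RingTheory.Ideal.GoingUp

set_option autoImplicit false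

noncomputable section

namespace Fermat.Agent.GaloisMod

open Polynomial ModularCurve GaloisAdic
open Fermat.Agent.Torsion (jTorsion heckeRep heckeTors coe_heckeTors heckeRep_T heckeRep_U mem_jTorsion)

local notation "ℚbar" => AlgebraicClosure ℚ
local notation "Γℚ" => AlgebraicClosure ℚ ≃ₐ[ℚ] AlgebraicClosure ℚ

variable {N : ℕ} [NeZero N] {p : ℕ} [Fact p.Prime] [NeZero p]

local notation "𝕋" => CuspForm.heckeAlgebra N 2 (∅ : Set ℕ)

/-- Every element of the Hecke algebra lies in a subring containing all generators. -/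
lemma heckeAlgebra_induction {P : 𝕋 → Prop} (hgen : ∀ q : Nat.Primes, P (heckeGenAt N q))
    (hint : ∀ z : ℤ, P (z : 𝕋)) (hadd : ∀ a b, P a → P b → P (a + b))
    (hmul : ∀ a b, P a → P b → P (a * b)) (t : 𝕋) : P t := by
  obtain ⟨t, ht⟩ := t
  have ht' := ht
  induction ht' using Algebra.adjoin_induction with
  | mem x hx =>
    rcases hx with ⟨ℓ, hℓ, hℓN, -, rfl⟩ | ⟨q, hqN, hq, -, rfl⟩
    · simpa [heckeGenAt, hℓN, CuspForm.heckeAlgebra.T] using hgen ⟨ℓ, hℓ⟩
    · simpa [heckeGenAt, hqN, CuspForm.heckeAlgebra.U] using hgen ⟨q, hq⟩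
  | algebraMap z =>
    convert hint z using 1
    exact Subtype.ext (by simp)
  | add x y hx hy h1 h2 => exact hadd _ _ (h1 hx) (h2 hy)
  | mul x y hx hy h1 h2 => exact hmul _ _ (h1 hx) (h2 hy)

variable (N) in
/-- The weight two Hecke algebra is finite over `ℤ`. -/
theorem heckeAlgebra_finite : Module.Finite ℤ 𝕋 := by
  let e := ParHom.parEquiv (ParHom.neg_one_mem_Gamma0 N) ℤ ℤ
  have : Module.Finite ℤ (ParHom.parEllHoms (CongruenceSubgroup.Gamma0 N) ℤ ℤ) :=
    Module.Finite.equiv e.symm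
  have : Module.Free ℤ (ParHom.parEllHoms (CongruenceSubgroup.Gamma0 N) ℤ ℤ) :=
    Module.Free.of_equiv e.symm
  exact Module.Finite.of_injective (HeckeCohom.heckeActZ N).toLinearMap
    (HeckeCohom.heckeActZ_injective (N := N))

/-- A prime of the Hecke algebra above a prime number is maximal. -/
theorem isMaximal_ker {k : Type*} [Field k] [CharP k p] (ψ : 𝕋 →+* k) :
    (RingHom.ker ψ).IsMaximal := by
  have := heckeAlgebra_finite N
  have : Algebra.IsIntegral ℤ 𝕋 := Algebra.IsIntegral.of_finite ℤ 𝕋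
  have : (RingHom.ker ψ).IsPrime := RingHom.ker_isPrime ψ
  refine Ideal.isMaximal_of_isIntegral_of_isMaximal_comap (R := ℤ) _ ?_
  have h : (RingHom.ker ψ).comap (algebraMap ℤ 𝕋) = Ideal.span {(p : ℤ)} := by
    ext z
    rw [Ideal.mem_comap, RingHom.mem_ker, eq_intCast, map_intCast, Ideal.mem_span_singleton]
    exact CharP.intCast_eq_zero_iff k p z
  rw [h]
  exact PrincipalIdealRing.isMaximal_of_irreducible
    (Nat.prime_iff_prime_int.mp Fact.out).irreducible

/-- `J₀(N)[p]`, as a module over the Hecke algebra. -/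
def JTors (N p : ℕ) : Type := jTorsion N p

instance : AddCommGroup (JTors N p) := inferInstanceAs (AddCommGroup (jTorsion N p))

instance : Finite (JTors N p) := inferInstanceAs (Finite (jTorsion N p))

instance : Module (CuspForm.heckeAlgebra N 2 (∅ : Set ℕ)) (JTors N p) where
  smul t x := heckeRep N p t x
  one_smul x := DFunLike.congr_fun (map_one (heckeRep N p)) x
  mul_smul s t x := DFunLike.congr_fun (map_mul (heckeRep N p) s t) x
  smul_zero t := (heckeRep N p t).map_zero
  smul_add t x y := (heckeRep N p t).map_add x y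
  add_smul s t x := DFunLike.congr_fun (map_add (heckeRep N p) s t) x
  zero_smul x := DFunLike.congr_fun (map_zero (heckeRep N p)) x

/-- The underlying point. -/
def JTors.pt (x : JTors N p) : JZero N :=
  ((show jTorsion N p from x) : JZero N)

lemma JTors.ext {x y : JTors N p} (h : x.pt = y.pt) : x = y := Subtype.ext h

lemma JTors.pow_one_nsmul (x : JTors N p) : p ^ 1 • x.pt = 0 := by
  rw [pow_one]
  exact mem_jTorsion.mp (Subtype.property (show jTorsion N p from x))

lemma pt_heckeGenAt_smul (q : Nat.Primes) (x : JTors N p) :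
    (heckeGenAt N q • x).pt = heckeOperatorBar N q x.pt := by
  change ((heckeRep N p (heckeGenAt N q) x : jTorsion N p) : JZero N) = _
  unfold heckeGenAt
  split_ifs with h
  · rw [heckeRep_U N p q.2 h]; rfl
  · rw [heckeRep_T N p q.2 h]; rfl

/-- Galois acting on `J₀(N)[p]`. -/
def galTors : Γℚ →* AddMonoid.End (JTors N p) where
  toFun σ :=
    ((DistribSMul.toAddMonoidHom (JZero N) σ).comp (jTorsion N p).subtype).codRestrict _
      fun x => Fermat.Agent.Torsion.map_mem_jTorsion (DistribSMul.toAddMonoidHom (JZero N) σ) x.2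
  map_one' := AddMonoidHom.ext fun x => Subtype.ext (one_smul Γℚ (x : JZero N))
  map_mul' σ τ := AddMonoidHom.ext fun x => Subtype.ext (mul_smul σ τ (x : JZero N))

omit [NeZero N] [Fact p.Prime] [NeZero p] in
lemma pt_galTors (σ : Γℚ) (x : JTors N p) : (galTors σ x).pt = σ • x.pt := rfl

variable (hcomm : ∀ (σ : Γℚ) (q : Nat.Primes) (x : JZero N),
    σ • heckeOperatorBar N q x = heckeOperatorBar N q (σ • x))

include hcomm in
lemma galTors_smul (σ : Γℚ) (t : 𝕋) (x : JTors N p) :
    galTors σ (t • x) = t • galTors σ x := by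
  revert x
  induction t using heckeAlgebra_induction with
  | hgen q =>
    intro x
    exact JTors.ext (by rw [pt_galTors, pt_heckeGenAt_smul, pt_heckeGenAt_smul, pt_galTors, hcomm])
  | hint z => intro x; rw [Int.cast_smul_eq_zsmul, Int.cast_smul_eq_zsmul, map_zsmul]
  | hadd a b ha hb => intro x; rw [add_smul, add_smul, map_add, ha, hb]
  | hmul a b ha hb => intro x; rw [mul_smul, mul_smul, ha, hb]

/-- Galois acting `𝕋`-linearly on `J₀(N)[p]`. -/
def galLin : Γℚ →* Module.End 𝕋 (JTors N p) where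
  toFun σ :=
    { toFun := galTors σ
      map_add' := (galTors σ).map_add
      map_smul' := fun t x => galTors_smul hcomm σ t x }
  map_one' := LinearMap.ext fun x => JTors.ext (one_smul Γℚ x.pt)
  map_mul' σ τ := LinearMap.ext fun x => JTors.ext (mul_smul σ τ x.pt)

lemma pt_galLin (σ : Γℚ) (x : JTors N p) : (galLin hcomm σ x).pt = σ • x.pt := rfl

omit hcomm in
/-- The residual representation attached to a character of the Hecke algebra. -/
theorem exists_residualRep_of_heckeHom (hF : TorsionFacts N p) {k : Type} [Field k] [CharP k p]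
    (ψ : 𝕋 →+* k) :
    ∃ ρ : ResidualGaloisRep k,
      (∀ q : Nat.Primes, ¬ (q : ℕ) ∣ N → (q : ℕ) ≠ p →
        ∀ A : ValuationSubring ℚbar, A.LiesOverPrime q → ∀ τ : Γℚ, A.IsFrobeniusAt τ q →
          LinearMap.charpoly (ρ.ρ τ) =
            X ^ 2 - C (ψ (heckeGenAt N q)) * X + C (((q : ℕ) : k))) ∧
      ∀ q : ℕ, q.Prime → ¬ q ∣ N → q ≠ p → ρ.IsUnramifiedAt q := by
  classical
  have hmax : (RingHom.ker ψ).IsMaximal := isMaximal_ker (p := p) ψ
  obtain ⟨x₀, hx₀, hx₀'⟩ := Fermat.Agent.Torsion.exists_ne_zero_forall_heckeRep_eq_zero N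
    (RingHom.ker ψ) hmax (p := p) (by simp [RingHom.mem_ker])
  let j := RingHom.kerLift ψ
  have : CharP (𝕋 ⧸ RingHom.ker ψ) p :=
    (RingHom.charP_iff j ψ.kerLift_injective p).mpr inferInstance
  let ι : ZMod (p ^ 1) →+* 𝕋 ⧸ RingHom.ker ψ :=
    ZMod.castHom (dvd_of_eq (pow_one p).symm) _
  let ω : Γℚ →* 𝕋 ⧸ RingHom.ker ψ :=
    (ι.comp (PadicInt.toZModPow 1)).toMonoidHom.comp (padicCyclo p)
  choose Lx hLx using fun v : JTors N p => hF.smooth v.pt
  obtain ⟨Lc, hLc, hLc'⟩ := padicCyclo_continuous p 1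
  have : ∀ v, FiniteDimensional ℚ (Lx v) := fun v => (hLx v).1
  let S : Finset ℕ := insert p N.primeFactors
  have hS : ∀ q : ℕ, q.Prime → (q ∉ S ↔ ¬ q ∣ N ∧ q ≠ p) := fun q hq => by
    simp only [S, Finset.mem_insert, Nat.mem_primeFactors_of_ne_zero (NeZero.ne N), hq, true_and,
      not_or, and_comm]
  obtain ⟨ρ, hρ, hρ'⟩ := exists_residualRep_of_module ψ hmax
    (W := JTors N p) ⟨x₀, hx₀, hx₀'⟩ (galLin hF.hecke_comm) ω S (heckeGenAt N)
    ((⨆ v, Lx v) ⊔ Lc)
    (fun σ hσ => LinearMap.ext fun v => JTors.ext <| by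
      rw [pt_galLin]
      exact (hLx v).2 σ fun y hy =>
        hσ y ((le_sup_left : (⨆ v, Lx v) ≤ (⨆ v, Lx v) ⊔ Lc) (le_iSup Lx v hy)))
    (fun σ hσ => by
      show ι (PadicInt.toZModPow 1 (padicCyclo p σ)) = 1
      rw [hLc' σ fun y hy => hσ y ((le_sup_right : Lc ≤ (⨆ v, Lx v) ⊔ Lc) hy), map_one])
    (fun q hq A hA τ hτ => by
      obtain ⟨hqN, hqp⟩ := (hS q q.2).mp hq
      refine ⟨?_, fun x => JTors.ext ?_⟩
      · show ι (PadicInt.toZModPow 1 (padicCyclo p τ)) = _
        rw [padicCyclo_frobenius p q.2 hqp hA hτ, map_natCast, map_natCast]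
      · refine Eq.trans ?_ (hF.frobenius q hqN hqp A hA τ hτ 1 x.pt x.pow_one_nsmul)
        show τ • τ • x.pt - (heckeGenAt N q • galLin hF.hecke_comm τ x).pt +
          ((q : ℕ) • x : JTors N p).pt = _
        rw [pt_heckeGenAt_smul, pt_galLin]
        rfl)
  refine ⟨ρ, fun q hqN hqp => hρ q ((hS q q.2).mpr ⟨hqN, hqp⟩), fun q hq hqN hqp A hA σ hσ => ?_⟩
  refine hρ' σ (LinearMap.ext fun v => JTors.ext ?_) ?_
  · exact hF.unramified q hq hqN hqp A hA σ hσ 1 _ v.pow_one_nsmul
  · show ι (PadicInt.toZModPow 1 (padicCyclo p σ)) = 1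
    rw [padicCyclo_inertia p hq hqp hA hσ, map_one, map_one]

end Fermat.Agent.GaloisMod
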