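/-
Residual Galois representations attached to weight two eigenforms.
-/
import Fermat.Agent.GaloisMod.Torsion
import Fermat.Agent.GaloisAdic.Inputs
import Fermat.Agent.Eigen.EigenHom

set_option autoImplicit false

noncomputable section

namespace Fermat.Agent.GaloisMod

open Polynomial GaloisAdic CongruenceSubgroup

local notation "ℚbar" => AlgebraicClosure ℚ
local notation "Γℚ" => AlgebraicClosure ℚ ≃ₐ[ℚ] AlgebraicClosure ℚ

section Character

variable {N : ℕ} [NeZero N] {g : CuspForm (Gamma0 N) 2}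

/-- The eigencharacter of an eigenform, with values in the algebraic integers. -/
def eigenCharInt (hg : g.IsNormalizedEigenform) :
    CuspForm.heckeAlgebra N 2 (∅ : Set ℕ) →+* integralClosure ℤ ℂ :=
  (Eigen.eigenChar g hg (∅ : Set ℕ)).codRestrict _ fun t => by
    have : Module.Finite ℤ (CuspForm.heckeAlgebra N 2 (∅ : Set ℕ)) := heckeAlgebra_finite N
    exact map_isIntegral_int (Eigen.eigenChar g hg (∅ : Set ℕ))
      ((Algebra.IsIntegral.of_finite ℤ (CuspForm.heckeAlgebra N 2 (∅ : Set ℕ))).isIntegral t)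

theorem coe_eigenCharInt_heckeGenAt (hg : g.IsNormalizedEigenform) (q : Nat.Primes)
    (hqN : ¬ (q : ℕ) ∣ N) :
    (eigenCharInt hg (heckeGenAt N q) : ℂ) = ModularFormClass.qCoeff g q := by
  change Eigen.eigenChar g hg (∅ : Set ℕ) (heckeGenAt N q) = _
  rw [heckeGenAt, dif_neg hqN]
  exact Eigen.eigenChar_T hg q.2 hqN _

end Character

/-- The residual representation of an eigenform, with its ramification. -/
theorem exists_residualRep_of_eigenform {N : ℕ} {g : CuspForm (Gamma0 N) 2}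
    (hg : g.IsNormalizedEigenform) {p : ℕ} (hp : p.Prime) {k : Type} [Field k] [CharP k p]
    (φ : integralClosure ℤ ℂ →+* k) :
    ∃ ρ : ResidualGaloisRep k, ρ.IsAttachedTo g φ ∧
      ∀ ℓ : ℕ, ℓ.Prime → ¬ ℓ ∣ N * p → ρ.IsUnramifiedAt ℓ := by
  rcases eq_or_ne N 0 with rfl | hN
  · refine ⟨⟨Fin 2 → k, Module.finrank_fin_fun k, 1, ⊥, inferInstance, fun _ _ => rfl⟩, ?_, ?_⟩
    · intro ℓ _ hℓ
      exact absurd (dvd_zero ℓ) hℓ
    · intro ℓ _ hℓ
      exact absurd (by simp : ℓ ∣ 0 * p) hℓ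
  have : NeZero N := ⟨hN⟩
  have : Fact p.Prime := ⟨hp⟩
  have : NeZero p := ⟨hp.ne_zero⟩
  obtain ⟨ρ, h1, h2⟩ := exists_residualRep_of_heckeHom (GaloisAdic.torsionFacts N p)
    (φ.comp (eigenCharInt hg))
  refine ⟨ρ, fun ℓ hℓ hℓN hℓk A hA σ hσ => ?_, fun ℓ hℓ hℓNp => ?_⟩
  · refine ⟨eigenCharInt hg (heckeGenAt N ⟨ℓ, hℓ⟩),
      coe_eigenCharInt_heckeGenAt hg ⟨ℓ, hℓ⟩ hℓN, ?_⟩
    exact h1 ⟨ℓ, hℓ⟩ hℓN (fun h => hℓk (by
      rw [show ℓ = p from h]
      exact CharP.cast_eq_zero k p)) A hA σ hσ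
  · exact h2 ℓ hℓ (fun h => hℓNp (h.mul_right p))
      (fun h => hℓNp (by rw [h]; exact dvd_mul_left p N))

end Fermat.Agent.GaloisMod
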