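/-
`EigenformResidualAttachmentAt` for a Frey package.
-/
import Fermat.Agent.GaloisMod.Main
import Fermat.Agent.EC.Torsion
import Fermat.Agent.Galois.QbarInstances
import Fermat.Agent.Mult.Frey
import Fermat.Prelude.Def_FreyPackage_EigenformResidualAttachment
import Mathlib.LinearAlgebra.Charpoly.ToMatrix
import Mathlib.FieldTheory.Normal.Closure

set_option autoImplicit false

noncomputable section

namespace Fermat.Agent.GaloisMod

open Polynomial

local notation "ℚbar" => AlgebraicClosure ℚ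
local notation "Γℚ" => AlgebraicClosure ℚ ≃ₐ[ℚ] AlgebraicClosure ℚ

/-- On a plane the characteristic polynomial determines trace and determinant. -/
lemma trace_det_of_charpoly {k : Type*} [Field k] {V : Type*} [AddCommGroup V] [Module k V]
    [Module.Finite k V] (hd : Module.finrank k V = 2) {f : Module.End k V} {a b : k}
    (h : f.charpoly = X ^ 2 - C a * X + C b) :
    LinearMap.trace k V f = a ∧ LinearMap.det f = b := by
  let e := Module.finBasisOfFinrankEq k V hd
  have h2 : X ^ 2 - C (LinearMap.trace k V f) * X + C (LinearMap.det f) =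
      X ^ 2 - C a * X + C b := by
    rw [← h, ← LinearMap.charpoly_toMatrix f e, Matrix.charpoly_fin_two,
      ← LinearMap.trace_eq_matrix_trace k e f, LinearMap.det_toMatrix e f]
  constructor
  · simpa [coeff_X_pow] using congrArg (fun P : k[X] => P.coeff 1) h2
  · simpa [coeff_X_pow] using congrArg (fun P : k[X] => P.coeff 0) h2

/-- Every finite level is contained in a Galois number field. -/
lemma exists_galois_level (L : IntermediateField ℚ ℚbar) [FiniteDimensional ℚ L] :
    ∃ F : IntermediateField ℚ ℚbar, FiniteDimensional ℚ F ∧ IsGalois ℚ F ∧ L ≤ F :=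
  have : Normal ℚ ℚbar := Galois.qbar_isGalois.to_normal
  ⟨IntermediateField.normalClosure ℚ L ℚbar, inferInstance,
    isGalois_iff.mpr ⟨inferInstance, normalClosure.normal ℚ L ℚbar⟩,
    L.le_normalClosure⟩

/-- The Frey curve over `ℚbar` is elliptic. -/
lemma isElliptic_baseChange_freyCurve (P : FreyPackage) :
    (WeierstrassCurve.Affine.baseChange P.freyCurve ℚbar).IsElliptic := by
  have h1 : P.freyCurve.Δ ≠ 0 := by
    rw [← Mult.freyCurveInt_map P, WeierstrassCurve.map_Δ, eq_intCast, Int.cast_ne_zero]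
    intro h
    have h2 := Mult.freyCurveInt_Δ_mul P
    rw [h, mul_zero] at h2
    exact pow_ne_zero _ P.habc0 h2.symm
  refine ⟨isUnit_iff_ne_zero.mpr ?_⟩
  show (P.freyCurve.map (algebraMap ℚ ℚbar)).Δ ≠ 0
  rw [WeierstrassCurve.map_Δ]
  exact (_root_.map_ne_zero _).mpr h1

theorem eigenformResidualAttachmentAt (P : FreyPackage) {M : ℕ} (hM : 0 < M) :
    P.EigenformResidualAttachmentAt M := by
  classical
  intro g hg 𝔪 h𝔪 hp𝔪
  have : NeZero M := ⟨hM.ne'⟩
  have hp : Fact P.p.Prime := ⟨P.pp⟩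
  let K := integralClosure ℤ ℂ ⧸ 𝔪
  let : Field K := Ideal.Quotient.field 𝔪
  let ψ : integralClosure ℤ ℂ →+* K := Ideal.Quotient.mk 𝔪
  have : CharP K P.p := (CharP.charP_iff_prime_eq_zero P.pp).mpr (by
    rw [← map_natCast ψ]
    exact Ideal.Quotient.eq_zero_iff_mem.mpr hp𝔪)
  let : Algebra (ZMod P.p) K := ZMod.algebra K P.p
  obtain ⟨ρ, hρ, -⟩ := exists_residualRep_of_eigenform hg P.pp ψ
  obtain ⟨L₁, hL₁, hρL⟩ := ρ.factorsThroughFiniteLevel
  have := isElliptic_baseChange_freyCurve P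
  obtain ⟨L₂, hL₂, hEL⟩ := EC.galoisFactorsThroughFiniteLevel P.freyCurve (n := P.p) P.pp.ne_zero
  obtain ⟨F, hF, hFG, hle⟩ := exists_galois_level (L₁ ⊔ L₂)
  have : NumberField F := { to_finiteDimensional := hF }
  refine ⟨K, inferInstance, inferInstance, ρ.V, inferInstance, inferInstance, ρ.ρ, ψ,
    F, inferInstance, inferInstance, hFG, inferInstance, inferInstance, ?_, ρ.finrank_eq, ?_, ?_, ?_⟩
  · exact le_of_eq Ideal.mk_ker.symm
  · intro σ hσ
    have hfix : ∀ x ∈ F, σ x = x := fun x hx => by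
      have h := AlgEquiv.restrictNormal_commutes σ F (⟨x, hx⟩ : F)
      have h1 : σ.restrictNormal F = 1 := hσ
      rw [h1] at h
      exact h.symm
    exact ⟨MonoidHom.mem_ker.mpr (hEL σ fun x hx => hfix x (hle (le_sup_right (a := L₁) hx))),
      MonoidHom.mem_ker.mpr (hρL σ fun x hx => hfix x (hle (le_sup_left (b := L₂) hx)))⟩
  all_goals
    intro ℓ hℓ hℓM hℓp A hA τ hτ
    have hℓK : ((ℓ : ℕ) : K) ≠ 0 := fun h =>
      hℓp ((Nat.prime_dvd_prime_iff_eq P.pp hℓ).mp ((CharP.cast_eq_zero_iff K P.p ℓ).mp h)).symm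
    obtain ⟨a, ha, hch⟩ := hρ ℓ hℓ hℓM hℓK A hA τ hτ
    obtain ⟨htr, hdet⟩ := trace_det_of_charpoly ρ.finrank_eq hch
    first
      | exact ⟨a, ha, htr⟩
      | exact hdet

end Fermat.Agent.GaloisMod
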